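import Mathlib

/-!
# Common fixed vectors of unipotent groups of exponent two
-/

set_option autoImplicit false

namespace Fermat.Agent.CarayolX

variable {K V G : Type*} [Field K] [AddCommGroup V] [Module K V] [FiniteDimensional K V] [Group G]

/-- A group acting with `R σ + R σ⁻¹ = 2` has a nonzero fixed vector. -/
theorem exists_fixed (R : G →* Module.End K V) (I : Subgroup G) (W : Submodule K V) (hW : W ≠ ⊥)
    (hst : ∀ σ ∈ I, ∀ v ∈ W, R σ v ∈ W)
    (h2 : ∀ σ ∈ I, ∀ v ∈ W, R σ v + R σ⁻¹ v = v + v) :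
    ∃ v ∈ W, v ≠ 0 ∧ ∀ σ ∈ I, R σ v = v := by
  have hinv : ∀ σ v, R σ⁻¹ (R σ v) = v := fun σ v => by
    rw [← Module.End.mul_apply, ← map_mul, inv_mul_cancel, map_one, Module.End.one_apply]
  have hinv' : ∀ σ v, R σ (R σ⁻¹ v) = v := fun σ v => by
    rw [← Module.End.mul_apply, ← map_mul, mul_inv_cancel, map_one, Module.End.one_apply]
  obtain ⟨U, ⟨hUW, hU0, hUst⟩, hmin⟩ := wellFounded_lt.has_min
    {U : Submodule K V | U ≤ W ∧ U ≠ ⊥ ∧ ∀ σ ∈ I, ∀ v ∈ U, R σ v ∈ U} ⟨W, le_rfl, hW, hst⟩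
  have key : ∀ τ ∈ I, ∀ u ∈ U, R τ u = u := by
    intro τ hτ
    let U' : Submodule K V := U ⊓ LinearMap.ker (R τ - 1)
    have hmem : ∀ v, v ∈ U' ↔ v ∈ U ∧ R τ v = v := fun v => by
      rw [Submodule.mem_inf, LinearMap.mem_ker, LinearMap.sub_apply, Module.End.one_apply,
        sub_eq_zero]
    have hU' : U' = U := by
      by_contra hne
      refine hmin U' ⟨inf_le_left.trans hUW, ?_, ?_⟩ (lt_of_le_of_ne inf_le_left hne)
      · obtain ⟨u, hu, hu0⟩ := (Submodule.ne_bot_iff U).1 hU0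
        rw [Submodule.ne_bot_iff]
        by_cases hn : R τ u - u = 0
        · exact ⟨u, (hmem u).2 ⟨hu, sub_eq_zero.1 hn⟩, hu0⟩
        · refine ⟨R τ u - u, (hmem _).2 ⟨U.sub_mem (hUst τ hτ u hu) hu, ?_⟩, hn⟩
          have h3 := h2 τ hτ (R τ u) (hst τ hτ u (hUW hu))
          rw [hinv] at h3
          rw [map_sub, sub_eq_sub_iff_add_eq_add]
          exact h3
      · intro σ hσ v hv
        obtain ⟨hvU, hv⟩ := (hmem v).1 hv
        refine (hmem _).2 ⟨hUst σ hσ v hvU, ?_⟩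
        have h3 := h2 (σ * τ) (I.mul_mem hσ hτ) v (hUW hvU)
        have h4 := h2 σ hσ v (hUW hvU)
        have h5 : R τ⁻¹ v = v := by
          conv_lhs => rw [← hv]
          exact hinv τ v
        rw [mul_inv_rev, map_mul, map_mul, Module.End.mul_apply, Module.End.mul_apply, hv,
          eq_sub_of_add_eq' h4, map_sub, map_add, h5] at h3
        have h6 : R τ⁻¹ (R σ v) = R σ v := by
          have h7 : R σ v - R τ⁻¹ (R σ v) = 0 := by
            have := sub_eq_zero.2 h3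
            rw [← this]
            abel
          exact (sub_eq_zero.1 h7).symm
        conv_lhs => rw [← h6]
        exact hinv' τ _
    intro u hu
    rw [← hU'] at hu
    exact ((hmem u).1 hu).2
  obtain ⟨u, hu, hu0⟩ := (Submodule.ne_bot_iff U).1 hU0
  exact ⟨u, hUW hu, hu0, fun σ hσ => key σ hσ u hu⟩

end Fermat.Agent.CarayolX
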