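import Fermat.Agent.CarayolX.HeckeOp

/-!
# Inertia invariants are killed by relations at lower level
-/

set_option autoImplicit false
set_option linter.style.haveILetI false
set_option maxHeartbeats 2000000
set_option synthInstance.maxHeartbeats 200000

noncomputable section

namespace Fermat.Agent.CarayolX

open ModularCurve Fermat.Agent.ModFun Fermat.Agent.AnJac AlgebraicCurve
open Fermat.Agent.HeckeQ Matrix Fermat.Agent.Curves Module Fermat.Agent.Carayol
open Fermat.Agent.GalRep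

local notation "Qb" => AlgebraicClosure ℚ
local notation "GQ" => Qb ≃ₐ[ℚ] Qb

variable {M : ℕ} [NeZero M] {p : ℕ} [hp : Fact p.Prime]

theorem comm_P {r : ℕ} {R : Matrix (Fin r) (Fin r) ℤ_[p]} {J : Type*}
    (t : J → Matrix (Fin r) (Fin r) ℤ)
    (h : ∀ j, R * castHom r ℤ_[p] (t j) = castHom r ℤ_[p] (t j) * R) (P : FreeAlgebra ℤ J) :
    R * castHom r ℤ_[p] (FreeAlgebra.lift ℤ t P) =
      castHom r ℤ_[p] (FreeAlgebra.lift ℤ t P) * R := by
  induction P using FreeAlgebra.induction with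
  | grade0 c =>
    rw [AlgHom.commutes, eq_intCast, map_intCast]
    exact mul_intCast_comm' R c
  | grade1 j => rw [FreeAlgebra.lift_ι_apply]; exact h j
  | mul P Q hP hQ => rw [map_mul, map_mul, ← Matrix.mul_assoc, hP, Matrix.mul_assoc, hQ,
      Matrix.mul_assoc]
  | add P Q hP hQ => rw [map_add, map_add, Matrix.mul_add, Matrix.add_mul, hP, hQ]

theorem ne_zero_natCast_padic {a : ℕ} (ha : a ≠ 0) : (a : ℤ_[p]) ≠ 0 := by
  exact_mod_cast ha

/-- **Inertia invariants are killed by relations at lower level.** -/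
theorem mulVec_eq_zero (HC : CarayolCore) {q M₁ d : ℕ} (hq : q.Prime) (hqM : Nat.Coprime q M₁)
    (hM : M = q ^ 2 * M₁) (hd : (q ≠ 2 → d = 4) ∧ (q = 2 → d = 9)) (hqp : q ≠ p)
    [NeZero (q * (d * M₁))] {A : ValuationSubring Qb} (hA : A.LiesOverPrime q)
    {J : Type*} (t : J → PrimeT) (hJ : ∀ j, ¬ (t j).1 ∣ M * p)
    (hJ' : ∀ j, ¬ (t j).1 ∣ (q * (d * M₁)) * p)
    {P : FreeAlgebra ℤ J}
    (hP : FreeAlgebra.lift ℤ (fun j => KSys.tm (bL (q * (d * M₁)))
      (LTot (q * (d * M₁)) (t j).1)) P = 0)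
    {x : Fin (finrank ℤ (Lat M)) → ℤ_[p]}
    (hx : ∀ σ ∈ A.inertiaSubgroupIn ℚ, (KQ M).rho (bL M) p σ *ᵥ x = x) :
    castHom _ ℤ_[p] (FreeAlgebra.lift ℤ (fun j => KSys.tm (bL M) (LTot M (t j).1)) P) *ᵥ x = 0 := by
  have hM0 : M ≠ 0 := NeZero.ne M
  have hq0 : q ≠ 0 := hq.ne_zero
  have hM₁0 : M₁ ≠ 0 := by
    rintro rfl
    exact hM0 (by rw [hM, mul_zero])
  have hd0 : d ≠ 0 := by
    intro h
    exact NeZero.ne (q * (d * M₁)) (by rw [h, zero_mul, mul_zero])
  haveI : NeZero q := ⟨hq0⟩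
  haveI : NeZero (d * M₁) := ⟨mul_ne_zero hd0 hM₁0⟩
  set N' : ℕ := q ^ 2 * (d * M₁) with hN'
  haveI : NeZero N' := ⟨mul_ne_zero (pow_ne_zero 2 hq0) (mul_ne_zero hd0 hM₁0)⟩
  have h1 : q * (d * M₁) ∣ N' := ⟨q, by rw [hN']; ring⟩
  have h2 : q * (q * (d * M₁)) ∣ N' := ⟨1, by rw [hN']; ring⟩
  have h3 : M ∣ N' := ⟨d, by rw [hN', hM]; ring⟩
  have hcop : Nat.Coprime q (d * M₁) := by
    refine Nat.Coprime.mul_right ?_ hqM
    by_cases h : q = 2
    · rw [hd.2 h, h]; decide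
    · rw [hd.1 h]
      rw [Nat.Prime.coprime_iff_not_dvd hq]
      intro h4
      have h5 : q ∣ 2 ^ 2 := h4
      exact h ((Nat.prime_dvd_prime_iff_eq hq Nat.prime_two).mp (hq.dvd_of_dvd_pow h5))
  obtain ⟨C, hC, HC'⟩ := HC q (d * M₁) N' hq hcop (fun h => by rw [hd.1 h]; exact dvd_mul_right _ _)
    (fun h => by rw [hd.2 h]; exact dvd_mul_right _ _) rfl h1 h2 A hA
  obtain ⟨e, he, hnorm⟩ := exists_normAlong_apply (inc Qb h3) (finiteAlong (incA h3))
  set h := FreeAlgebra.lift ℤ (fun j => KSys.tm (bL M) (LTot M (t j).1)) P with hh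
  set y := castHom _ ℤ_[p] h *ᵥ x with hy
  have hop1 : Op M (q * (d * M₁)) (fun u => normAlong (inc Qb h1) (inc Qb h3 u)) :=
    (op_inc h3).comp (op_norm_inc h1)
  have hop2 : Op M (q * (d * M₁)) (fun u => normAlong (exN Qb q h2) (inc Qb h3 u)) :=
    (op_inc h3).comp (op_norm_ex q h2)
  have hyσ : ∀ σ ∈ A.inertiaSubgroupIn ℚ, (KQ M).rho (bL M) p σ *ᵥ y = y := by
    intro σ hσ
    have h4 := comm_P (R := (KQ M).rho (bL M) p σ)
      (fun j => KSys.tm (bL M) (LTot M (t j).1)) (fun j => rho_comm_LTot M p σ (t j).1) P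
    rw [hy, Matrix.mulVec_mulVec, h4, ← Matrix.mulVec_mulVec, hx σ hσ]
  have key : ∀ n : ℕ, (C * e) • (fun i => PadicInt.toZModPow n (y i)) = 0 := by
    intro n
    have hn := KSys.pn0 p n
    set yn : Fin (finrank ℤ (Lat M)) → ZMod (p ^ n) := fun i => PadicInt.toZModPow n (y i) with hyn
    obtain ⟨u, hu⟩ := (KQ M).exists_cls (bL M) hn yn
    have hu0 : u ≠ 0 := hu.ne_zero
    -- the class is of the form `h x`
    have hyn' : yn = rmod (p ^ n) h *ᵥ (fun i => PadicInt.toZModPow n (x i)) := by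
      have h4 := RingHom.map_mulVec (PadicInt.toZModPow (p := p) n) (castHom _ ℤ_[p] h) x
      have h5 := KSys.map_castHom (p := p) n h
      funext i
      have h6 := h4 i
      refine h6.trans ?_
      refine congrFun ?_ i
      exact congrArg (fun Z => Z *ᵥ _) h5
    have hord : ∀ v : Place Qb (FF Qb M), ((p ^ n : ℕ) : ℤ) ∣ v.ord u := by
      obtain ⟨φ, h4, -⟩ := hu
      exact fun v => ClX.dvd_ord ιQ h4 v
    have hgal : ∀ σ ∈ A.inertiaSubgroupIn ℚ, ∃ g : FF Qb M, g ≠ 0 ∧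
        galF M (σ : Qb ≃+* Qb) u = u * g ^ (p ^ n) := by
      intro σ hσ
      have h4 := hu.act hn σ
      have h5 : (KQ M).M (bL M) hn σ *ᵥ yn = yn := by
        have h6 := RingHom.map_mulVec (PadicInt.toZModPow (p := p) n)
          ((KQ M).rho (bL M) p σ) y
        have h7 := (KQ M).rho_spec (bL M) p σ n
        funext i
        have h8 := h6 i
        rw [hyσ σ hσ] at h8
        refine Eq.trans ?_ h8.symm
        refine congrFun ?_ i
        exact congrArg (fun Z => Z *ᵥ _) h7.symm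
      rw [h5] at h4
      exact h4.exists_pow hn hu
    obtain ⟨z, hz0, hz⟩ := HC' (p ^ n) (Nat.pos_of_ne_zero hn)
      (Nat.Coprime.pow_right n ((Nat.coprime_primes hq hp.out).2 hqp)) (inc Qb h3 u)
      ((map_ne_zero _).mpr hu0) (ord_incA h3 hord) (fun σ hσ => by
        obtain ⟨g, hg, e1⟩ := hgal σ hσ
        refine ⟨inc Qb h3 g, (map_ne_zero _).mpr hg, ?_⟩
        rw [← (op_inc h3).gal, e1, map_mul, map_pow])
      (hop1.exists_pow n t hJ hJ' hP (by rw [← hh, ← hyn']; exact hu))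
      (hop2.exists_pow n t hJ hJ' hP (by rw [← hh, ← hyn']; exact hu))
    have h4 := congrArg (normAlong (inc Qb h3)) hz
    rw [← map_pow, hnorm, normAlong_pow, ← pow_mul] at h4
    have h5 := hu.npow hn (C * e)
    rw [h4] at h5
    exact h5.unique hn (KSys.cls_pow hn (normAlong_ne_zero _ hz0))
  have h4 : ∀ i, ((C * e : ℕ) : ℤ_[p]) * y i = 0 := by
    intro i
    rw [← PadicInt.ext_of_toZModPow]
    intro n
    have h5 := congrFun (key n) i
    rw [map_mul, map_natCast, map_zero]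
    rw [Pi.smul_apply, nsmul_eq_mul] at h5
    exact h5
  funext i
  exact (mul_eq_zero.mp (h4 i)).resolve_left
    (ne_zero_natCast_padic (mul_ne_zero hC.ne' he.ne'))

end Fermat.Agent.CarayolX
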