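import Fermat.Agent.CarayolX.NormOp
import Fermat.Agent.Frob.Qbar
import Fermat.Agent.AnJac.Link

/-!
# Galois equivariant operators are Hecke equivariant
-/

set_option autoImplicit false
set_option linter.style.haveILetI false

noncomputable section

namespace Fermat.Agent.CarayolX

open ModularCurve Fermat.Agent.ModFun Fermat.Agent.AnJac AlgebraicCurve
open Fermat.Agent.HeckeQ Matrix Fermat.Agent.Curves Module Fermat.Agent.Carayol
open Fermat.Agent.GalRep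

local notation "Qb" => AlgebraicClosure ℚ
local notation "GQ" => Qb ≃ₐ[ℚ] Qb

variable {N M : ℕ} [NeZero N] [NeZero M] {p : ℕ} [hp : Fact p.Prime]

/-- integral matrices modulo `n` -/
abbrev rmod {r : ℕ} (n : ℕ) : Matrix (Fin r) (Fin r) ℤ →+* Matrix (Fin r) (Fin r) (ZMod n) :=
  (Int.castRingHom (ZMod n)).mapMatrix

/-- the Eichler–Shimura relation modulo `p^n` -/
theorem T_mod {ℓ : ℕ} (hℓ : ℓ.Prime) (hℓN : ¬ ℓ ∣ N * p)
    {A : ValuationSubring Qb} (hA : A.LiesOverPrime ℓ) {τ : GQ} (hτ : A.IsFrobeniusAt τ ℓ)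
    (n : ℕ) : rmod (p ^ n) (KSys.tm (bL N) (LTot N ℓ)) =
      (KQ N).M (bL N) (KSys.pn0 p n) τ + (ℓ : ZMod (p ^ n)) • (KQ N).M (bL N) (KSys.pn0 p n) τ⁻¹ := by
  have h1 := rho_frob_LTot (esHyp N p) hℓ hℓN hA hτ
  have h2 := congrArg (PadicInt.toZModPow n).mapMatrix h1
  rw [map_add, (KQ N).rho_spec] at h2
  have h3 := (KQ N).rho_spec (bL N) p τ⁻¹ n
  rw [← h3]
  refine (KSys.map_castHom n _).symm.trans (h2.trans ?_)
  congr 1
  ext i j
  simp

theorem Op.mat_T {H : FF Qb N → FF Qb M} (hH : Op N M H) {n : ℕ}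
    {A : Matrix (Fin (finrank ℤ (Lat M))) (Fin (finrank ℤ (Lat N))) (ZMod (p ^ n))}
    (hA : KSys.IsMat (KQ N) (bL N) (KQ M) (bL M) (p ^ n) H A)
    {ℓ : ℕ} (hℓ : ℓ.Prime) (hℓN : ¬ ℓ ∣ N * p) (hℓM : ¬ ℓ ∣ M * p) :
    A * rmod (p ^ n) (KSys.tm (bL N) (LTot N ℓ)) =
      rmod (p ^ n) (KSys.tm (bL M) (LTot M ℓ)) * A := by
  obtain ⟨B, hB, τ, hτ⟩ := Frob.exists_place_frobenius hℓ
  rw [T_mod hℓ hℓN hB hτ n, T_mod hℓ hℓM hB hτ n, Matrix.mul_add, Matrix.add_mul,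
    Matrix.mul_smul, Matrix.smul_mul, hH.mat_M (KSys.pn0 p n) hA, hH.mat_M (KSys.pn0 p n) hA]

theorem mul_intCast_comm' {a b : ℕ} {R : Type*} [CommRing R] (A : Matrix (Fin a) (Fin b) R)
    (c : ℤ) : A * (c : Matrix (Fin b) (Fin b) R) = (c : Matrix (Fin a) (Fin a) R) * A := by
  rw [← Matrix.diagonal_intCast, ← Matrix.diagonal_intCast]
  ext i j
  rw [Matrix.mul_diagonal, Matrix.diagonal_mul]
  exact mul_comm _ _

theorem intertwine {a b m : ℕ} (A : Matrix (Fin b) (Fin a) (ZMod m)) {J : Type*}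
    (tN : J → Matrix (Fin a) (Fin a) ℤ) (tM : J → Matrix (Fin b) (Fin b) ℤ)
    (h : ∀ j, A * rmod m (tN j) = rmod m (tM j) * A) (P : FreeAlgebra ℤ J) :
    A * rmod m (FreeAlgebra.lift ℤ tN P) = rmod m (FreeAlgebra.lift ℤ tM P) * A := by
  induction P using FreeAlgebra.induction with
  | grade0 c =>
    rw [AlgHom.commutes, AlgHom.commutes, eq_intCast, eq_intCast, map_intCast, map_intCast]
    exact mul_intCast_comm' A c
  | grade1 j =>
    rw [FreeAlgebra.lift_ι_apply, FreeAlgebra.lift_ι_apply]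
    exact h j
  | mul P Q hP hQ =>
    rw [map_mul, map_mul, map_mul, map_mul, ← Matrix.mul_assoc, hP, Matrix.mul_assoc, hQ,
      Matrix.mul_assoc]
  | add P Q hP hQ =>
    rw [map_add, map_add, map_add, map_add, Matrix.mul_add, Matrix.add_mul, hP, hQ]

/-- noncommutative polynomials in the Hecke operators -/
theorem Op.mat_P {H : FF Qb N → FF Qb M} (hH : Op N M H) {n : ℕ}
    {A : Matrix (Fin (finrank ℤ (Lat M))) (Fin (finrank ℤ (Lat N))) (ZMod (p ^ n))}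
    (hA : KSys.IsMat (KQ N) (bL N) (KQ M) (bL M) (p ^ n) H A)
    {J : Type*} (t : J → PrimeT) (hJ : ∀ j, ¬ (t j).1 ∣ N * p) (hJ' : ∀ j, ¬ (t j).1 ∣ M * p)
    (P : FreeAlgebra ℤ J) :
    A * rmod (p ^ n) (FreeAlgebra.lift ℤ (fun j => KSys.tm (bL N) (LTot N (t j).1)) P) =
      rmod (p ^ n) (FreeAlgebra.lift ℤ (fun j => KSys.tm (bL M) (LTot M (t j).1)) P) * A :=
  intertwine A _ _ (fun j => hH.mat_T hA (t j).2 (hJ j) (hJ' j)) P

/-- a relation at level `M` makes the values of the operator `p^n`-th powers -/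
theorem Op.exists_pow {H : FF Qb N → FF Qb M} (hH : Op N M H) (n : ℕ)
    {J : Type*} (t : J → PrimeT) (hJ : ∀ j, ¬ (t j).1 ∣ N * p) (hJ' : ∀ j, ¬ (t j).1 ∣ M * p)
    {P : FreeAlgebra ℤ J}
    (hP : FreeAlgebra.lift ℤ (fun j => KSys.tm (bL M) (LTot M (t j).1)) P = 0)
    {u : FF Qb N} {x : Fin (finrank ℤ (Lat N)) → ZMod (p ^ n)}
    (hu : (KQ N).Cls (bL N) (p ^ n) u
      (rmod (p ^ n) (FreeAlgebra.lift ℤ (fun j => KSys.tm (bL N) (LTot N (t j).1)) P) *ᵥ x)) :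
    ∃ g : FF Qb M, H u = g ^ (p ^ n) := by
  obtain ⟨A, hA⟩ := hH.exists_mat (KSys.pn0 p n)
  have h1 := hA u _ hu
  rw [Matrix.mulVec_mulVec, hH.mat_P hA t hJ hJ' P, hP, map_zero, Matrix.zero_mul,
    Matrix.zero_mulVec] at h1
  obtain ⟨g, -, hg⟩ := h1.exists_pow_one (KSys.pn0 p n)
  exact ⟨g, hg⟩

end Fermat.Agent.CarayolX
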