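import Fermat.Agent.SSMod.EigU

/-!
# Kernels of families of matrices and torsion-free extensions
-/

set_option autoImplicit false
set_option linter.style.haveILetI false
set_option maxHeartbeats 400000
set_option synthInstance.maxHeartbeats 200000

namespace Fermat.Agent.CarayolX

open Matrix

variable {p : ℕ} [Fact p.Prime]

/-- inclusions of kernels extend to torsion-free extensions -/
theorem ker_ext_family {r : ℕ} {B : Type} [CommRing B] [IsDomain B] {f : ℤ_[p] →+* B}
    (hf : Function.Injective f) {ι : Type*} {N₁ : ι → Matrix (Fin r) (Fin r) ℤ_[p]}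
    {N₂ : Matrix (Fin r) (Fin r) ℤ_[p]}
    (h : ∀ x : Fin r → ℤ_[p], (∀ i, N₁ i *ᵥ x = 0) → N₂ *ᵥ x = 0) {v : Fin r → B}
    (hv : ∀ i, f.mapMatrix (N₁ i) *ᵥ v = 0) : f.mapMatrix N₂ *ᵥ v = 0 := by
  letI := f.toAlgebra
  haveI : FaithfulSMul ℤ_[p] B := (faithfulSMul_iff_algebraMap_injective ℤ_[p] B).mpr hf
  haveI : Module.IsTorsionFree ℤ_[p] B := inferInstance
  haveI : Module.Flat ℤ_[p] B := inferInstance
  let x : (Fin r → ℤ_[p]) →ₗ[ℤ_[p]] B := Fintype.linearCombination ℤ_[p] v
  have hx : ∀ a, x a = ∑ i, f (a i) * v i := fun a => by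
    rw [Fintype.linearCombination_apply]
    exact Finset.sum_congr rfl fun i _ => Algebra.smul_def _ _
  have hmv : ∀ (N : Matrix (Fin r) (Fin r) ℤ_[p]) i, (f.mapMatrix N *ᵥ v) i = x (N i) := by
    intro N i
    rw [hx, Matrix.mulVec, dotProduct]
    rfl
  let Rw : Submodule ℤ_[p] (Fin r → ℤ_[p]) :=
    Submodule.span ℤ_[p] (Set.range fun ik : ι × Fin r => N₁ ik.1 ik.2)
  have hRw : ∀ i k, N₁ i k ∈ Rw := fun i k => Submodule.subset_span ⟨(i, k), rfl⟩
  have h0 : x ∘ₗ Rw.subtype = 0 := by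
    refine LinearMap.ext fun y => ?_
    obtain ⟨y, hy⟩ := y
    show x y = 0
    induction hy using Submodule.span_induction with
    | mem y hy =>
      obtain ⟨⟨i, k⟩, rfl⟩ := hy
      exact (hmv (N₁ i) k).symm.trans (congrFun (hv i) k)
    | zero => exact map_zero x
    | add y z _ _ hy hz => rw [map_add, hy, hz, add_zero]
    | smul a y _ hy => rw [map_smul, hy, smul_zero]
  obtain ⟨k, a, y, hxa, ha⟩ := Module.Flat.exists_factorization_of_comp_eq_zero_of_free h0
  have hsum : ∀ z : Fin r → ℤ_[p], z = ∑ j, z j • Pi.single j (1 : ℤ_[p]) := by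
    intro z
    ext j
    simp [Finset.sum_apply, Pi.single_apply]
  have key : ∀ l : Fin k, ∀ i, N₁ i *ᵥ (fun j => a (Pi.single j 1) l) = 0 := by
    intro l i
    ext m
    have h1 : a (N₁ i m) = 0 := LinearMap.congr_fun ha ⟨N₁ i m, hRw i m⟩
    rw [hsum (N₁ i m), map_sum] at h1
    have h3 := DFunLike.congr_fun h1 l
    rw [Finsupp.finsetSum_apply] at h3
    rw [Matrix.mulVec, dotProduct]
    refine (Finset.sum_congr rfl fun j _ => ?_).trans h3
    rw [map_smul, Finsupp.smul_apply, smul_eq_mul]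
  ext i
  rw [hmv, hxa, LinearMap.comp_apply]
  have h4 : a (N₂ i) = 0 := by
    ext l
    rw [hsum (N₂ i), map_sum, Finsupp.finsetSum_apply]
    have h5 := congrFun (h _ (key l)) i
    rw [Matrix.mulVec, dotProduct] at h5
    refine (Finset.sum_congr rfl fun j _ => ?_).trans h5
    rw [map_smul, Finsupp.smul_apply, smul_eq_mul]
  rw [h4, map_zero]
  rfl

end Fermat.Agent.CarayolX
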