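import Fermat.Agent.SSMod.S35Core
import Fermat.Agent.Newform.Strong

/-!
# Relations at lower levels not satisfied by a newform
-/

set_option autoImplicit false
set_option linter.style.haveILetI false
set_option maxHeartbeats 1000000
set_option synthInstance.maxHeartbeats 200000

noncomputable section

namespace Fermat.Agent.CarayolX

open ModularCurve CongruenceSubgroup MatrixGroups Fermat.Agent.GalRep Fermat.Agent.AnJac
open EichlerShimura ModularForm ModularCurve.Period Matrix Fermat.Agent.SSMod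
open Fermat.Agent.Newform (S2 GP Eig chi)
open ModularFormClass (qCoeff)

/-- integral homomorphisms which are independent over `ℤ` are independent over `ℂ` -/
theorem eq_zero_of_sum_eq_zero {Γ : Type*} {r : ℕ} (b : Fin r → Γ → ℤ)
    (hb : ∀ c : Fin r → ℤ, (∀ γ, ∑ j, c j * b j γ = 0) → c = 0) {v : Fin r → ℂ}
    (h : ∀ γ, ∑ j, (b j γ : ℂ) * v j = 0) : v = 0 := by
  let V : Submodule ℤ ℂ := Submodule.span ℤ (Set.range v)
  have hfin : Module.Finite ℤ V := Module.Finite.span_of_finite ℤ (Set.finite_range v)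
  have hfree : Module.Free ℤ V := inferInstance
  let w := Module.finBasis ℤ V
  let v' : Fin r → V := fun j => ⟨v j, Submodule.subset_span ⟨j, rfl⟩⟩
  have h1 : ∀ γ, ∑ j, b j γ • v' j = 0 := by
    intro γ
    apply Subtype.ext
    rw [Submodule.coe_sum]
    refine (Finset.sum_congr rfl fun j _ => ?_).trans (h γ)
    show (b j γ : ℤ) • (v j) = _
    rw [zsmul_eq_mul]
  have h2 : ∀ k, (fun j => w.repr (v' j) k) = 0 := by
    intro k
    apply hb
    intro γ
    have h3 := congrArg (fun x => w.repr x k) (h1 γ)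
    simp only [map_sum, map_smul, Finsupp.finsetSum_apply, Finsupp.smul_apply, map_zero,
      Finsupp.zero_apply, smul_eq_mul] at h3
    rw [← h3]
    exact Finset.sum_congr rfl fun j _ => mul_comm _ _
  have h3 : ∀ j, v' j = 0 := by
    intro j
    apply w.repr.injective
    rw [map_zero]
    ext k
    exact congrFun (h2 k) j
  ext j
  exact congrArg Subtype.val (h3 j)

section Vec

variable {L : ℕ} [NeZero L]

/-- the homomorphism attached to a complex vector -/
def vecHom (v : Fin (Module.finrank ℤ (Lat L)) → ℂ) : Additive (Gamma0 L) →+ ℂ :=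
  ∑ j, (mulC (v j)).comp (bL L j : Additive (Gamma0 L) →+ ℤ)

theorem vecHom_apply (v : Fin (Module.finrank ℤ (Lat L)) → ℂ) (x : Additive (Gamma0 L)) :
    vecHom v x = ∑ j, (((bL L j : Lat L) : Additive (Gamma0 L) →+ ℤ) x : ℂ) * v j := by
  rw [vecHom, AddMonoidHom.finsetSum_apply]
  exact Finset.sum_congr rfl fun j _ => mulC_apply _ _

theorem vecHom_ne_zero {v : Fin (Module.finrank ℤ (Lat L)) → ℂ} (hv : v ≠ 0) : vecHom v ≠ 0 := by
  intro h0
  apply hv
  refine eq_zero_of_sum_eq_zero (Γ := Additive (Gamma0 L))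
    (fun j x => ((bL L j : Lat L) : Additive (Gamma0 L) →+ ℤ) x) ?_ fun x => ?_
  · intro c hc
    have h1 : ∑ j, c j • bL L j = 0 := by
      apply Subtype.ext
      refine AddMonoidHom.ext fun x => ?_
      rw [AddSubgroup.val_finsetSum, AddMonoidHom.finsetSum_apply]
      exact hc x
    ext j
    have h2 := congrArg (fun y => (bL L).repr y j) h1
    simpa [Finsupp.single_apply] using h2
  · rw [← vecHom_apply, h0]
    rfl

theorem vecHom_mem (v : Fin (Module.finrank ℤ (Lat L)) → ℂ) : vecHom v ∈ NHA (Gamma0 L) ℂ := by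
  intro γ hγ
  rw [vecHom_apply]
  refine Finset.sum_eq_zero fun j _ => ?_
  rw [(bL L j).2 γ hγ, Int.cast_zero, zero_mul]

theorem MT_vecHom (ℓ : ℕ) {v : Fin (Module.finrank ℤ (Lat L)) → ℂ} {a : ℂ}
    (h : castHom _ ℂ (KSys.tm (bL L) (LTot L ℓ)) *ᵥ v = a • v) :
    MT L ℂ ℓ (vecHom v) = a • vecHom v := by
  refine AddMonoidHom.ext fun x => ?_
  have h1 : MT L ℂ ℓ (vecHom v) = ∑ j, (mulC (v j)).comp
      ((LTot L ℓ (bL L j) : Lat L) : Additive (Gamma0 L) →+ ℤ) := by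
    rw [vecHom, map_sum]
    refine Finset.sum_congr rfl fun j _ => ?_
    rw [MT_comp, coe_LTot]
  have h2 : ∀ j, LTot L ℓ (bL L j) = ∑ i, KSys.tm (bL L) (LTot L ℓ) i j • bL L i := fun j =>
    ((bL L).sum_repr _).symm
  rw [h1, AddMonoidHom.finsetSum_apply]
  have h3 : ∀ j, ((mulC (v j)).comp ((LTot L ℓ (bL L j) : Lat L) : Additive (Gamma0 L) →+ ℤ)) x =
      ∑ i, ((KSys.tm (bL L) (LTot L ℓ) i j : ℤ) : ℂ) *
        (((bL L i : Lat L) : Additive (Gamma0 L) →+ ℤ) x : ℂ) * v j := by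
    intro j
    rw [AddMonoidHom.comp_apply, mulC_apply, h2 j, AddSubgroup.val_finsetSum,
      AddMonoidHom.finsetSum_apply, Int.cast_sum, Finset.sum_mul]
    refine Finset.sum_congr rfl fun i _ => ?_
    show (((KSys.tm (bL L) (LTot L ℓ) i j *
      ((bL L i : Lat L) : Additive (Gamma0 L) →+ ℤ) x : ℤ)) : ℂ) * v j = _
    rw [Int.cast_mul]
  rw [Finset.sum_congr rfl fun j _ => h3 j, Finset.sum_comm]
  show _ = a • vecHom v x
  rw [vecHom_apply, Finset.smul_sum]
  refine Finset.sum_congr rfl fun i _ => ?_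
  have h4 := congrFun h i
  rw [Matrix.mulVec, dotProduct, Pi.smul_apply, smul_eq_mul] at h4
  have h5 : ∑ j, ((KSys.tm (bL L) (LTot L ℓ) i j : ℤ) : ℂ) *
        (((bL L i : Lat L) : Additive (Gamma0 L) →+ ℤ) x : ℂ) * v j =
      (((bL L i : Lat L) : Additive (Gamma0 L) →+ ℤ) x : ℂ) *
        ∑ j, castHom _ ℂ (KSys.tm (bL L) (LTot L ℓ)) i j * v j := by
    rw [Finset.mul_sum]
    refine Finset.sum_congr rfl fun j _ => ?_
    rw [castHom_apply]
    ring
  rw [h5, h4, smul_eq_mul]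
  ring

theorem periodHomPair_heckeOp' {l : ℕ} (hl : l.Prime) (f g : CuspForm (Gamma0 L) 2) :
    periodHomPair L (DSLift.heckeOp L 2 hl f, DSLift.heckeOp L 2 hl g) =
      MT L ℂ l (periodHomPair L (f, g)) := by
  rw [periodHomPair_apply, periodHomPair_apply, map_add, map_add, map_sub, ← symb_heckeOp hl,
    ← symb_heckeOp hl, ← symb_conj_heckeOp hl, ← symb_conj_heckeOp hl]

/-- eigenforms from eigenvectors -/
theorem Eig_ne_bot {D : ℕ} {χ : GP D → ℂ} {v : Fin (Module.finrank ℤ (Lat L)) → ℂ} (hv : v ≠ 0)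
    (h : ∀ l : GP D, castHom _ ℂ (KSys.tm (bL L) (LTot L l.1)) *ᵥ v = χ l • v) :
    Eig L D χ ≠ ⊥ := by
  obtain ⟨⟨f₁, f₂⟩, hf⟩ : vecHom v ∈ LinearMap.range (periodHomPair L) := by
    rw [(S21.result L).2, mem_parabolicHoms_iff]
    intro γ hγ
    exact vecHom_mem v γ ((trace_sq_le_iff _).mp hγ.le)
  have heig : ∀ l : GP D, DSLift.heckeOp L 2 l.2.1 f₁ = χ l • f₁ ∧
      DSLift.heckeOp L 2 l.2.1 f₂ = χ l • f₂ := by
    intro l
    have h3 : periodHomPair L (DSLift.heckeOp L 2 l.2.1 f₁, DSLift.heckeOp L 2 l.2.1 f₂) =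
        periodHomPair L (χ l • f₁, χ l • f₂) := by
      rw [periodHomPair_heckeOp', hf, MT_vecHom l.1 (h l), ← Prod.smul_mk, map_smul, hf]
    have h4 := periodHomPair_injective h3
    exact ⟨congrArg Prod.fst h4, congrArg Prod.snd h4⟩
  intro h0
  have h1 : f₁ = 0 := by
    have : f₁ ∈ Eig L D χ := Newform.mem_Eig.2 fun l => (heig l).1
    rwa [h0, Submodule.mem_bot] at this
  have h2 : f₂ = 0 := by
    have : f₂ ∈ Eig L D χ := Newform.mem_Eig.2 fun l => (heig l).2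
    rwa [h0, Submodule.mem_bot] at this
  rw [h1, h2] at hf
  exact vecHom_ne_zero hv (hf.symm.trans (map_zero _))

end Vec

/-- **Relations.** A newform of level `M` does not satisfy some relation of level `L`, `M ∤ L`. -/
theorem exists_rel {M : ℕ} [NeZero M] {g : S2 M} (hg : g.IsNewform) {L : ℕ} [NeZero L]
    (hML : ¬ M ∣ L) {J : Type} (t : J → PrimeT) {D : ℕ} (hD : D ≠ 0)
    (hJ : ∀ l : GP D, ∃ j, (t j).1 = l.1) :
    ∃ P : FreeAlgebra ℤ J,
      FreeAlgebra.lift ℤ (fun j => KSys.tm (bL L) (LTot L (t j).1)) P = 0 ∧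
      FreeAlgebra.lift ℤ (fun j => qCoeff g (t j).1) P ≠ 0 := by
  by_contra hcon
  push Not at hcon
  set F : FreeAlgebra ℤ J →ₐ[ℤ] Matrix (Fin (Module.finrank ℤ (Lat L)))
      (Fin (Module.finrank ℤ (Lat L))) ℤ :=
    FreeAlgebra.lift ℤ (fun i => KSys.tm (bL L) (LTot L (t i).1)) with hF
  have hFι : ∀ i, F (FreeAlgebra.ι ℤ i) = KSys.tm (bL L) (LTot L (t i).1) :=
    fun i => FreeAlgebra.lift_ι_apply _ _
  set R := F.range with hR
  -- commutativity
  have hcomm : ∀ i j : J, KSys.tm (bL L) (LTot L (t i).1) * KSys.tm (bL L) (LTot L (t j).1) =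
      KSys.tm (bL L) (LTot L (t j).1) * KSys.tm (bL L) (LTot L (t i).1) := by
    intro i j
    have h1 := actL_eq_zero (N := L) (P := FreeAlgebra.ι ℤ (t i) * FreeAlgebra.ι ℤ (t j) -
      FreeAlgebra.ι ℤ (t j) * FreeAlgebra.ι ℤ (t i)) (by
        rw [map_sub, map_mul, map_mul, actS_ι, actS_ι, heckeOp_comm', sub_self])
    have h2 : ∀ i : J, tmA (bL L) (actL L (FreeAlgebra.ι ℤ (t i))) =
        KSys.tm (bL L) (LTot L (t i).1) := by
      intro i
      have : actL L (FreeAlgebra.ι ℤ (t i)) = LTot L (t i).1 :=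
        AddMonoidHom.ext fun φ => actL_ι _ φ
      rw [this]
      rfl
    rw [map_sub, sub_eq_zero] at h1
    have h3 := congrArg (tmA (bL L)) h1
    rw [map_mul, map_mul, map_mul, map_mul] at h3
    rw [← h2, ← h2]
    exact h3
  have hRadj : R = Algebra.adjoin ℤ (Set.range fun i => KSys.tm (bL L) (LTot L (t i).1)) := by
    rw [hR, ← Algebra.map_top, ← FreeAlgebra.adjoin_range_ι, AlgHom.map_adjoin, ← Set.range_comp]
    congr 1
    ext x
    simp only [Set.mem_range, Function.comp_apply, hFι]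
  haveI : IsMulCommutative R := by
    rw [hRadj]
    exact Algebra.isMulCommutative_adjoin ℤ (by
      rintro _ ⟨i, rfl⟩ _ ⟨j, rfl⟩
      exact hcomm i j)
  obtain ⟨ψ, hψ'⟩ := exists_lift_range F
    (FreeAlgebra.lift ℤ (fun j => qCoeff g (t j).1) : FreeAlgebra ℤ J →ₐ[ℤ] ℂ).toRingHom hcon
  have hψ : ∀ i, ψ ⟨KSys.tm (bL L) (LTot L (t i).1), ⟨FreeAlgebra.ι ℤ i, hFι i⟩⟩ =
      qCoeff g (t i).1 := by
    intro i
    refine (hψ' (FreeAlgebra.ι ℤ i) _ (hFι i)).trans ?_
    exact FreeAlgebra.lift_ι_apply _ _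
  obtain ⟨v, hv, hv'⟩ := exists_eigvec R ψ
  have hv2 : ∀ i, castHom _ ℂ (KSys.tm (bL L) (LTot L (t i).1)) *ᵥ v = qCoeff g (t i).1 • v := by
    intro i
    have h := hv' ⟨KSys.tm (bL L) (LTot L (t i).1), ⟨FreeAlgebra.ι ℤ i, hFι i⟩⟩
    rw [hψ] at h
    exact h
  have h1 : Eig L D (chi g D) ≠ ⊥ := Eig_ne_bot hv fun l => by
    obtain ⟨j, hj⟩ := hJ l
    rw [← hj, hv2 j, hj]
    rfl
  obtain ⟨f, hf, -, hfχ⟩ := Newform.exists_eigenform_of_Eig h1
  exact hML (Newform.level_dvd hg hf hD fun ℓ hℓ hℓD => (hfχ ⟨ℓ, hℓ, hℓD⟩).symm)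

end Fermat.Agent.CarayolX
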