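import Fermat.Agent.Carayol.Interface
import Fermat.Agent.AnJacH.ClsOp
import Fermat.Agent.Curves.Along
import Fermat.Agent.HeckeQ.Inst

/-!
# Norms between function fields of modular curves, on classes of functions
-/

set_option autoImplicit false
set_option linter.style.haveILetI false

noncomputable section

namespace Fermat.Agent.CarayolX

open ModularCurve Fermat.Agent.ModFun Fermat.Agent.AnJac AlgebraicCurve
open Fermat.Agent.HeckeQ Matrix Fermat.Agent.Curves Module Fermat.Agent.Carayol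

local notation "Qb" => AlgebraicClosure ℚ
local notation "GQ" => Qb ≃ₐ[ℚ] Qb

section Gen

variable {E F : Type*} [Field E] [Field F]

theorem normAlong_mul (f : E →+* F) (u v : F) :
    normAlong f (u * v) = normAlong f u * normAlong f v :=
  letI := f.toAlgebra
  map_mul (Algebra.norm E) u v

theorem normAlong_one (f : E →+* F) : normAlong f 1 = 1 :=
  letI := f.toAlgebra
  map_one (Algebra.norm E)

theorem normAlong_pow (f : E →+* F) (u : F) (n : ℕ) : normAlong f (u ^ n) = normAlong f u ^ n :=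
  letI := f.toAlgebra
  map_pow (Algebra.norm E) u n

theorem normAlong_ne_zero (f : E →+* F) {u : F} (hu : u ≠ 0) : normAlong f u ≠ 0 := by
  intro h0
  have h1 := normAlong_mul f u u⁻¹
  rw [mul_inv_cancel₀ hu, normAlong_one, h0, zero_mul] at h1
  exact one_ne_zero h1

theorem normAlong_equiv (f : E →+* F) (e₁ : E ≃+* E) (e₂ : F ≃+* F)
    (h : ∀ x, e₂ (f x) = f (e₁ x)) (u : F) : normAlong f (e₂ u) = e₁ (normAlong f u) := by
  letI := f.toAlgebra
  have h1 := Algebra.norm_eq_of_equiv_equiv (A₁ := E) (B₁ := F) (A₂ := E) (B₂ := F) e₁ e₂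
    (RingHom.ext fun x => (h x).symm) u
  change Algebra.norm E (e₂ u) = e₁ (Algebra.norm E u)
  rw [h1, RingEquiv.apply_symm_apply]

theorem exists_normAlong_apply (f : E →+* F)
    (hf : letI := f.toAlgebra; Module.Finite E F) :
    ∃ e : ℕ, 0 < e ∧ ∀ x, normAlong f (f x) = x ^ e := by
  letI := f.toAlgebra
  haveI : Module.Finite E F := hf
  refine ⟨finrank E F, finrank_pos, fun x => ?_⟩
  exact Algebra.norm_algebraMap (S := F) x

end Gen

section Alg

variable {N M : ℕ} [NeZero N] [NeZero M]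

/-- inclusion of levels, as a homomorphism of algebras -/
def incA {N M : ℕ} (h : N ∣ M) : FF Qb N →ₐ[Qb] FF Qb M :=
  { inc Qb h with commutes' := inc_const h }

/-- `f(z) ↦ f(ez)`, as a homomorphism of algebras -/
def exA (e : ℕ) [NeZero e] {N M : ℕ} (h : e * N ∣ M) : FF Qb N →ₐ[Qb] FF Qb M :=
  { exN Qb e h with commutes' := exN_const e h }

theorem incA_toRingHom {N M : ℕ} (h : N ∣ M) : (incA h).toRingHom = inc Qb h := rfl

theorem exA_toRingHom (e : ℕ) [NeZero e] {N M : ℕ} (h : e * N ∣ M) :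
    (exA e h).toRingHom = exN Qb e h := rfl

/-- the norm preserves divisibility of divisors -/
theorem ord_normAlong (φ : FF Qb N →ₐ[Qb] FF Qb M) {n : ℕ} {u : FF Qb M} (hu0 : u ≠ 0)
    (hu : ∀ v : Place Qb (FF Qb M), (n : ℤ) ∣ v.ord u) (v : Place Qb (FF Qb N)) :
    (n : ℤ) ∣ v.ord (normAlong φ.toRingHom u) := by
  have h1 := pushforwardAlong_divisorOf φ (integralAlong φ) hu0
  have h2 : ∃ D : Divisor Qb (FF Qb M), divisorOf (k := Qb) u = (n : ℤ) • D := by
    choose c hc using hu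
    refine ⟨(divisorOf (k := Qb) u).mapRange (fun z => z / (n : ℤ)) (by simp), ?_⟩
    ext w
    rw [Finsupp.smul_apply, Finsupp.mapRange_apply]
    change w.ord u = (n : ℤ) • (w.ord u / (n : ℤ))
    rw [hc w, smul_eq_mul]
    rcases eq_or_ne (n : ℤ) 0 with h | h
    · rw [h]; simp
    · rw [Int.mul_ediv_cancel_left _ h]
  obtain ⟨D, hD⟩ := h2
  rw [hD, map_zsmul] at h1
  have h3 := DFunLike.congr_fun h1 v
  rw [Finsupp.smul_apply] at h3
  exact ⟨_, h3.symm⟩

theorem ord_incA (h : N ∣ M) {n : ℕ} {u : FF Qb N}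
    (hu : ∀ v : Place Qb (FF Qb N), (n : ℤ) ∣ v.ord u) (v : Place Qb (FF Qb M)) :
    (n : ℤ) ∣ v.ord (inc Qb h u) :=
  GoodRed.ord_level (K := Qb) h u.2 _ hu v

/-- an operator between functions of different levels -/
structure Op (N M : ℕ) [NeZero N] [NeZero M] (H : FF Qb N → FF Qb M) : Prop where
  mul : ∀ u v, H (u * v) = H u * H v
  ne_zero : ∀ u, u ≠ 0 → H u ≠ 0
  gal : ∀ (σ : Qb ≃+* Qb) u, H (galF N σ u) = galF M σ (H u)
  ord : ∀ (n : ℕ) (u : FF Qb N), u ≠ 0 → (∀ v : Place Qb (FF Qb N), (n : ℤ) ∣ v.ord u) →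
    ∀ v : Place Qb (FF Qb M), (n : ℤ) ∣ v.ord (H u)

theorem op_normAlong (φ : FF Qb N →ₐ[Qb] FF Qb M)
    (hφ : ∀ (σ : Qb ≃+* Qb) x, φ (galF N σ x) = galF M σ (φ x)) :
    Op M N (normAlong φ.toRingHom) where
  mul u v := normAlong_mul _ u v
  ne_zero u hu := normAlong_ne_zero _ hu
  gal σ u := normAlong_equiv φ.toRingHom (galF N σ) (galF M σ) (fun x => (hφ σ x).symm) u
  ord n u hu0 hu v := ord_normAlong φ hu0 hu v

theorem op_inc (h : N ∣ M) : Op N M (inc Qb h) where
  mul u v := map_mul _ u v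
  ne_zero u hu := (map_ne_zero _).mpr hu
  gal σ u := by
    apply Subtype.ext
    rw [coe_inc, coe_galF, coe_galF, coe_inc]
  ord n u _ hu v := ord_incA h hu v

theorem Op.comp {L : ℕ} [NeZero L] {H : FF Qb N → FF Qb M} (hH : Op N M H) {H' : FF Qb M → FF Qb L}
    (hH' : Op M L H') : Op N L (fun u => H' (H u)) where
  mul u v := by rw [hH.mul, hH'.mul]
  ne_zero u hu := hH'.ne_zero _ (hH.ne_zero u hu)
  gal σ u := by rw [hH.gal, hH'.gal]
  ord n u hu0 hu v := hH'.ord n _ (hH.ne_zero u hu0) (hH.ord n u hu0 hu) v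

theorem op_norm_inc (h : N ∣ M) : Op M N (normAlong (inc Qb h)) :=
  op_normAlong (incA h) (fun σ x => (op_inc h).gal σ x)

theorem op_norm_ex (e : ℕ) [NeZero e] (h : e * N ∣ M) : Op M N (normAlong (exN Qb e h)) :=
  op_normAlong (exA e h) (fun σ x => by
    apply Subtype.ext
    change qExpand Qb e (galF N σ x : LaurentSeries Qb) = (galF M σ (exN Qb e h x) : LaurentSeries Qb)
    rw [coe_galF, coe_galF, coe_exN, coeffMap_qExpand])

variable {H : FF Qb N → FF Qb M} {n : ℕ}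

theorem Op.exists_mat (hH : Op N M H) (hn : n ≠ 0) :
    ∃ A, KSys.IsMat (KQ N) (bL N) (KQ M) (bL M) n H A :=
  KSys.exists_isMat hn hH.mul hH.ne_zero (fun u x hu => by
    have hu' := hu
    obtain ⟨φ, h1, -⟩ := hu'
    obtain ⟨ψ, hψ⟩ := exists_ClX (N := M) ιQ hn (u := H u) (hH.ne_zero u hu.ne_zero)
      (hH.ord n u hu.ne_zero fun v => ClX.dvd_ord ιQ h1 v)
    exact ⟨_, ψ, hψ, rfl⟩)

variable {A : Matrix (Fin (finrank ℤ (Lat M))) (Fin (finrank ℤ (Lat N))) (ZMod n)}

/-- Galois equivariance -/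
theorem Op.mat_M (hH : Op N M H) (hn : n ≠ 0) (hA : KSys.IsMat (KQ N) (bL N) (KQ M) (bL M) n H A)
    (σ : GQ) : A * (KQ N).M (bL N) hn σ = (KQ M).M (bL M) hn σ * A := by
  refine ((KSys.isMat_act hn σ).comp hA).eq hn ?_
  have h1 := hA.comp (KSys.isMat_act (b := bL M) hn σ)
  have h2 : (fun u => H ((KQ N).act σ u)) = fun u => (KQ M).act σ (H u) := by
    funext u
    exact hH.gal (fQ σ) u
  rw [h2]
  exact h1

end Alg

end Fermat.Agent.CarayolX
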