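import Fermat.Statements.S36
import Fermat.Agent.CarayolX.Main

/-!
# S36 from the function field form of Carayol's theorem
-/

set_option autoImplicit false
set_option maxHeartbeats 1000000

namespace Fermat.Agent.CarayolX

open Polynomial
open CuspForm CuspForm.IsNewform

theorem s36_of (HC : Fermat.Agent.Carayol.CarayolCore)
    {M : ℕ} [NeZero M] {g : CuspForm (CongruenceSubgroup.Gamma0 M) 2} (hg : g.IsNewform)
    (lam : ℕ) [Fact lam.Prime]
    (S : Finset ℕ)
    (O' : Type) [CommRing O'] [IsDomain O'] [IsDiscreteValuationRing O']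
    [IsAdicComplete (IsLocalRing.maximalIdeal O') O'] [Finite (IsLocalRing.ResidueField O')]
    [CharZero O'] (hlamO' : (lam : O') ∈ IsLocalRing.maximalIdeal O')
    (chig : CuspForm.heckeAlgebra M 2 (↑S : Set ℕ) →+* ℂ)
    (hchig : ∀ (ℓ : ℕ) (hℓ : ℓ.Prime) (hℓM : ¬ ℓ ∣ M) (hℓS : ℓ ∉ (↑S : Set ℕ)),
      chig (CuspForm.heckeAlgebra.T hℓ hℓM hℓS) = ModularFormClass.qCoeff g ℓ)
    (iota : chig.range →+* O')
    (hlamS : lam ∈ S) :
    ∃ (O'' : Type) (_ : CommRing O'') (_ : IsDomain O'') (_ : IsDiscreteValuationRing O'')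
      (_ : IsAdicComplete (IsLocalRing.maximalIdeal O'') O'') (_ : Finite (IsLocalRing.ResidueField O''))
      (_ : CharZero O'') (_ : Algebra O' O'') (_ : Module.Finite O' O'') (_ : IsLocalHom (algebraMap O' O'')),
      Function.Injective (algebraMap O' O'') ∧
      ∃ ρ : GaloisRepAdic O'',
        (∀ (ℓ : ℕ) (hℓ : ℓ.Prime) (hℓM : ¬ ℓ ∣ M) (hℓS : ℓ ∉ (↑S : Set ℕ)),
          ∀ A : ValuationSubring (AlgebraicClosure ℚ), A.LiesOverPrime ℓ →
            ∀ σ : AlgebraicClosure ℚ ≃ₐ[ℚ] AlgebraicClosure ℚ, A.IsFrobeniusAt σ ℓ →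
              LinearMap.charpoly (ρ.ρ σ) =
                X ^ 2 - C (algebraMap O' O'' ((iota.comp chig.rangeRestrict) (CuspForm.heckeAlgebra.T hℓ hℓM hℓS))) * X
                  + C ((ℓ : O''))) ∧
        (∀ q : ℕ, q.Prime → q ≠ lam → M.factorization q = 2 → ¬ ρ.IsUnipotentOnInertiaAt q) := by
  obtain ⟨B, i1, i2, i3, i4, i5, i6, i7, i8, i9, hinj, T, hT, hfr, -⟩ :=
    Fermat.Agent.GalRep.HData.exists_adic
      (D := Fermat.Agent.AnJac.hdata M lam (Fermat.Agent.HeckeQ.esHyp M lam))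
      (S := (↑S : Set ℕ)) S.finite_toSet (NeZero.ne M) hlamO'
      ((iota.comp chig.rangeRestrict).comp (Fermat.Agent.GalRep.HData.Phi (↑S : Set ℕ)
        (Fermat.Agent.AnJac.hdata_link (Fermat.Agent.HeckeQ.esHyp M lam))))
  have hlam : lam.Prime := Fact.out
  have hpB : (lam : B) ∈ IsLocalRing.maximalIdeal B := by
    have := map_nonunit (algebraMap O' B) (lam : O') hlamO'
    rwa [map_natCast] at this
  refine ⟨B, i1, i2, i3, i4, i5, i6, i7, i8, i9, hinj, Fermat.Agent.DefRing.matRep T hT, ?_, ?_⟩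
  · intro ℓ hℓ hℓN hℓS A hA σ hσ
    have hℓNp : ¬ ℓ ∣ M * lam := by
      intro h
      rcases hℓ.dvd_mul.mp h with h | h
      · exact hℓN h
      · rw [(Nat.prime_dvd_prime_iff_eq hℓ hlam).mp h] at hℓS
        exact hℓS hlamS
    obtain ⟨h1, h2⟩ := hfr ℓ hℓ hℓNp hℓS A hA σ hσ
    rw [RingHom.comp_apply, Fermat.Agent.GalRep.HData.Phi_T _ _ hℓ hℓNp hℓS] at h1
    rw [Fermat.Agent.GalRep.charpoly_matRep, h1, h2]
  · intro q hq hqp hf hun
    obtain ⟨A, hA, -⟩ := Fermat.Agent.Frob.exists_place_frobenius hq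
    have hπ : Fermat.Agent.GalRep.HData.FrobCond
        (D := Fermat.Agent.AnJac.hdata M lam (Fermat.Agent.HeckeQ.esHyp M lam))
        (S := (↑S : Set ℕ))
        ((((algebraMap O' B).comp iota).comp chig.rangeRestrict).comp
          (Fermat.Agent.GalRep.HData.Phi (↑S : Set ℕ)
            (Fermat.Agent.AnJac.hdata_link (Fermat.Agent.HeckeQ.esHyp M lam)))) T := hfr
    refine not_unipotent HC hg S hpB chig hchig ((algebraMap O' B).comp iota) hT hπ hq hqp hf hA ?_
    intro σ hσ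
    have h1 := hun A hA σ hσ
    rw [Fermat.Agent.GalRep.charpoly_matRep] at h1
    have h2 := congrArg (fun P => P.coeff 1) h1
    have h3 : ((X : B[X]) - 1) ^ 2 = X ^ 2 - C (2 : B) * X + C 1 := by
      rw [show (C (2 : B)) = 2 from rfl, C_1]
      ring
    simp only [h3, coeff_add, coeff_sub, coeff_X_pow, coeff_C_mul, coeff_X_one, mul_one,
      coeff_C_succ, add_zero, if_neg (by norm_num : ¬ (1 : ℕ) = 2), zero_sub, neg_inj] at h2
    exact h2

end Fermat.Agent.CarayolX
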